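/-
Programme S33 (ruling R1 = report 1278), brick N2-glue (helper3): THE CONSTRUCTOR OF
`S33P.Geo99.LocalGeomTate` ON THE CONCRETE OBJECTS OF `T1B/Local66`.

Twin of `T1B/Local66/Glue.localGeom_of_fields`.  Fixed: `K` (number field, inertia of `padicPlace p`
fixes it: `hK`), `c0 : TwoChart (Wb p K) B0 B1 B01`, a compatible family `P00 E ≤ Pic X_{O_E}` (`hPP`)
containing the `J̃¹(O_E)` (`hJP`).  Then

  `A := Atop p K c0`,  `actA := Bridge54.IpInst.actTop c0 hK`,  `Pt := Objects.PtTop c0`,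
  `J0 := Objects.J0top c0 P00 hPP`,  `J1 := Objects.J1top c0 P00 hPP`,

`sub_mem_J1` is discharged here (`Objects.sub_mem_J1top`) and `localGeomTate_of_fields` takes the other
fields as hypotheses on these concrete objects: J-BRIDGE on the `p`-POWER torsion (`j`, `j_inj`, `j_res`,
`j_Pt`), NODE (`sub_mem_J0`, exponent-free, the SAME statement as in `Glue`), TORIC at `p^n`
(`ιT`, `ιT_mul`, `ιT_smul`: the same as in `Glue`; `toric_inf`: the `p^n`-version of `toric`).
-/
import Mathlib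
import Fermat.Agent.T1B.Local66.Glue
import Fermat.Agent.S33P.Geo99.Tate

set_option autoImplicit false
set_option linter.unusedSectionVars false
set_option linter.style.haveILetI false
set_option synthInstance.maxHeartbeats 400000
set_option maxHeartbeats 1000000

open Fermat.Agent.TW.B5.Iface Fermat.Agent.RED.Interface4 Fermat.Agent.T1.HubInst98
open Fermat.Agent.T1.IntSub47 Fermat.Agent.Jac Fermat.Agent.T1.RedIface75
open Fermat.Agent.T1B.Local66.LocalBase Fermat.Agent.T1B.Local66.Union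
open Fermat.Agent.T1B.Local66.Objects Fermat.Agent.T1B.Local66.Assembly
open Fermat.Agent.T1B.Plumb66.Inertia (Ip mem_Ip)
open Fermat.Agent.T1B.Plumb66.OneUnits
open Fermat.Agent.T1B.Bridge54.IpAction Fermat.Agent.T1B.Bridge54.IpInst
open Fermat.Agent.T1B.Bridge54.IpUnion
open Fermat.Agent.ES.P36.InertField27 (InertFixed)
open Fermat.Agent.S33P.Geo99
open ModularCurve

noncomputable section

namespace Fermat.Agent.S33P.Inst3

universe uE

variable {p : ℕ} [Fact p.Prime] {K : IntermediateField ℚ Qbar} [Nonempty (NLevel p K)]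
  {B0 B1 B01 : Type} [CommRing B0] [CommRing B1] [CommRing B01]
  [Algebra (Wb p K) B0] [Algebra (Wb p K) B1] [Algebra (Wb p K) B01] [Algebra B0 B01]
  [Algebra B1 B01] [IsScalarTower (Wb p K) B0 B01] [IsScalarTower (Wb p K) B1 B01]
  (c0 : TwoChart (Wb p K) B0 B1 B01)
  {N M' : ℕ} [NeZero N] [NeZero M'] {π₁ π₂ : JZero N →+ JZero M'}

set_option linter.checkUnivs false in
/-- **The constructor of `LocalGeomTate` on the concrete objects.** -/
def localGeomTate_of_fields (hK : InertFixed (padicPlace p) K)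
    (P00 : ∀ E : NLevel p K, Subgroup (PicO c0 E)) (hPP : Compatible c0 P00)
    (hJP : ∀ E, J1Fam c0 E ≤ P00 E)
    -- J-BRIDGE on the `p`-power torsion
    (j : ↥(torsPinf N p) →+ Atop p K c0) (j_inj : Function.Injective j)
    (j_res : letI := actTop c0 hK
      ∀ (τ : ↥(Ip p)) (x : JZero N) (hx : x ∈ torsPinf N p)
        (hx' : localGaloisToGlobal p (τ : Gp p) • x ∈ torsPinf N p), j ⟨_, hx'⟩ = τ • j ⟨x, hx⟩)
    (j_Pt : ∀ x, j x ∈ PtTop c0)
    -- NODE
    (sub_mem_J0 : letI := actTop c0 hK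
      ∀ τ : ↥(Ip p), ∀ x ∈ PtTop c0, τ • x - x ∈ J0top c0 P00 hPP)
    -- TORIC at `p^n`
    (E : Type uE) (ιT : (E → oneUnits p) → Atop p K c0)
    (ιT_mul : ∀ a b : E → oneUnits p, ιT (a * b) = ιT a + ιT b)
    (ιT_smul : letI := actTop c0 hK
      ∀ (τ : ↥(Ip p)) (z : E → oneUnits p), ιT (fun e => (τ : Gp p) • z e) = τ • ιT z)
    (toric_inf : ∀ (x : JZero N) (hx : x ∈ torsPinf N p) (n : ℕ), (p ^ n) • x = 0 →
      π₁ x = 0 → π₂ x = 0 → j ⟨x, hx⟩ ∈ J1top c0 P00 hPP →
      ∃ z : E → oneUnits p, (∀ e, z e ^ (p ^ n) = 1) ∧ ιT z = j ⟨x, hx⟩) :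
    LocalGeomTate.{1, uE} p N M' π₁ π₂ where
  A := Atop p K c0
  instA := inferInstance
  actA := actTop c0 hK
  j := j
  j_inj := j_inj
  j_res := j_res
  Pt := PtTop c0
  j_Pt := j_Pt
  J0 := J0top c0 P00 hPP
  sub_mem_J0 := sub_mem_J0
  J1 := J1top c0 P00 hPP
  sub_mem_J1 := fun τ _ hx => sub_mem_J1top c0 P00 hPP hK hJP τ hx
  E := E
  ιT := ιT
  ιT_mul := ιT_mul
  ιT_smul := ιT_smul
  toric_inf := toric_inf

end Fermat.Agent.S33P.Inst3
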