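/-
Programme S33 (ruling R1 = report 1278), N-half, instantiation (helper3): the cubic identity on
`ker β_*` at the level `M' * p` for the two degeneracy maps of `T1B/Degen21/Level`
(`piOne M' p hp`, `piTwo M' p hp : JZero (M' * p) →+ JZero M'`), from ANY
`LocalGeomTate p (M' * p) M' (piOne …) (piTwo …)` (helper99's N1 + N3).

This is the shape `(N)` consumed by the wiring (`Main68/Concrete`, helper68): the `LocalGeomTate` is an
explicit hypothesis; `Inst3/Hub` (N2) discharges it from the T1B hub plugs.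
-/
import Mathlib
import Fermat.Agent.S33P.Geo99.TatePack
import Fermat.Agent.T1B.Degen21.Level

set_option autoImplicit false
set_option linter.unusedSectionVars false

open Fermat.Agent.TW.B5.Iface ModularCurve
open Fermat.Agent.T1B.Plumb66.Inertia (IA)
open Fermat.Agent.ES.J.TateModule13 Fermat.Agent.ES.J.TateJZero13 Fermat.Agent.ES.J.CycloChar8
open Fermat.Agent.T1B.Degen21.Level (piOne piTwo piOne_smul piTwo_smul)
open Fermat.Agent.S33P.Geo99

noncomputable section

namespace Fermat.Agent.S33P.Inst3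

local notation "Γ" => (AlgebraicClosure ℚ ≃ₐ[ℚ] AlgebraicClosure ℚ)

variable (p : ℕ) [hp : Fact p.Prime] (M' : ℕ) [NeZero M'] [NeZero p] [NeZero (M' * p)]

theorem piOne_ker_stable (g : Γ) (x : JZero (M' * p)) (h : piOne M' p hp.out x = 0) :
    piOne M' p hp.out (g • x) = 0 := by
  rw [piOne_smul, h]
  exact map_zero (DistribSMul.toAddMonoidHom (JZero M') g)

theorem piTwo_ker_stable (g : Γ) (x : JZero (M' * p)) (h : piTwo M' p hp.out x = 0) :
    piTwo M' p hp.out (g • x) = 0 := by
  rw [piTwo_smul, h]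
  exact map_zero (DistribSMul.toAddMonoidHom (JZero M') g)

/-- `x ∈ kerB` from the vanishing of the two induced maps on the Tate module. -/
theorem mem_kerB_of_map_eq_zero (x : TJ p (M' * p))
    (h1 : map (p := p) (piOne M' p hp.out) x = 0) (h2 : map (p := p) (piTwo M' p hp.out) x = 0) :
    x ∈ kerB p (piOne M' p hp.out) (piTwo M' p hp.out) :=
  ⟨h1, h2⟩

/-- **(N)**: the cubic identity on `ker β_*` at level `M' * p`, elementwise. -/
theorem cubic_level (G : LocalGeomTate p (M' * p) M' (piOne M' p hp.out) (piTwo M' p hp.out))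
    {σ σ' τ : Γ} (hσ : σ ∈ IA p) (hσ' : σ' ∈ IA p) (hτ : τ ∈ IA p) (x : TJ p (M' * p))
    (h1 : map (p := p) (piOne M' p hp.out) x = 0) (h2 : map (p := p) (piTwo M' p hp.out) x = 0) :
    (rhoT p (M' * p) τ - (cyclo p τ : ℤ_[p]) • (1 : Module.End ℤ_[p] (TJ p (M' * p))))
      ((rhoT p (M' * p) σ - 1) ((rhoT p (M' * p) σ' - 1) x)) = 0 :=
  cubic_on_kerB_of_localGeomTate G (piOne_ker_stable p M') (piTwo_ker_stable p M') hσ hσ' hτ x
    (mem_kerB_of_map_eq_zero p M' x h1 h2)

/-- **(N)**, product form in `Module.End ℤ_[p] (TJ p (M' * p))`. -/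
theorem cubic_level_mul (G : LocalGeomTate p (M' * p) M' (piOne M' p hp.out) (piTwo M' p hp.out))
    {σ σ' τ : Γ} (hσ : σ ∈ IA p) (hσ' : σ' ∈ IA p) (hτ : τ ∈ IA p) (x : TJ p (M' * p))
    (h1 : map (p := p) (piOne M' p hp.out) x = 0) (h2 : map (p := p) (piTwo M' p hp.out) x = 0) :
    ((rhoT p (M' * p) τ - (cyclo p τ : ℤ_[p]) • (1 : Module.End ℤ_[p] (TJ p (M' * p)))) *
      (rhoT p (M' * p) σ - 1) * (rhoT p (M' * p) σ' - 1)) x = 0 :=
  cubic_level p M' G hσ hσ' hτ x h1 h2

/-- The torsion form `CubicTors` at level `M' * p`. -/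
theorem cubicTors_level
    (G : LocalGeomTate p (M' * p) M' (piOne M' p hp.out) (piTwo M' p hp.out)) :
    CubicTors p (M' * p) M' (piOne M' p hp.out) (piTwo M' p hp.out) :=
  cubicTors_of_localGeomTate G (piOne_ker_stable p M') (piTwo_ker_stable p M')

end Fermat.Agent.S33P.Inst3
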